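import Mathlib
import Fermat.Agent.ModPoly.ModCtx
import Fermat.Prelude.Def_GaloisRep_Flat

set_option autoImplicit false
set_option linter.style.haveILetI false

noncomputable section

open Polynomial

namespace Fermat.Agent.Igusa

open GaloisRep ModPoly

variable (ℓ : ℕ) [hℓ : Fact ℓ.Prime]

omit hℓ in
theorem mem_ratLoc_iff (x : ℚ) : x ∈ ratLocalizedAt ℓ ↔ x.den.Coprime ℓ := Iff.rfl

theorem mem_ratLoc_iff' (x : ℚ) : x ∈ ratLocalizedAt ℓ ↔ ¬ ℓ ∣ x.den := by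
  rw [mem_ratLoc_iff, Nat.coprime_comm, Nat.Prime.coprime_iff_not_dvd hℓ.out]

omit hℓ in
theorem intCast_mem (n : ℤ) : (n : ℚ) ∈ ratLocalizedAt ℓ := by
  rw [mem_ratLoc_iff]
  simp

theorem inv_natCast_mem (n : ℕ) (hn : ¬ ℓ ∣ n) : ((n : ℚ))⁻¹ ∈ ratLocalizedAt ℓ := by
  rw [mem_ratLoc_iff']
  intro h
  apply hn
  refine h.trans ?_
  have hn0 : 0 < n := Nat.pos_of_ne_zero (by rintro rfl; simp at hn)
  rw [Rat.inv_natCast_den_of_pos hn0]

theorem mem_or (x : ℚ) : x ∈ ratLocalizedAt ℓ ∨ x⁻¹ ∈ ratLocalizedAt ℓ := by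
  by_cases h : ℓ ∣ x.den
  · right
    by_cases hx : x = 0
    · rw [hx, inv_zero]; exact zero_mem _
    have h1 : ¬ ℓ ∣ x.num.natAbs := by
      intro h2
      have h3 := x.reduced
      have h4 := Nat.dvd_gcd h2 h
      rw [h3] at h4
      exact hℓ.out.one_lt.ne' (Nat.dvd_one.mp h4)
    have h2 : x⁻¹ = (x.den : ℤ) * ((x.num : ℚ))⁻¹ := by
      conv_lhs => rw [← Rat.num_div_den x]
      rw [inv_div, div_eq_mul_inv]
      push_cast
      rfl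
    rw [h2]
    refine mul_mem (intCast_mem ℓ _) ?_
    rcases Int.natAbs_eq x.num with h3 | h3
    · rw [h3, Int.cast_natCast]
      exact inv_natCast_mem ℓ _ h1
    · rw [h3, Int.cast_neg, Int.cast_natCast, inv_neg]
      exact neg_mem (inv_natCast_mem ℓ _ h1)
  · left
    exact (mem_ratLoc_iff' ℓ x).mpr h

/-- a non-unit is divisible by `ℓ` -/
theorem exists_eq_mul (a : ratLocalizedAt ℓ) (ha : (a : ℚ)⁻¹ ∉ ratLocalizedAt ℓ ∨ (a : ℚ) = 0) :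
    ∃ b : ratLocalizedAt ℓ, a = (ℓ : ratLocalizedAt ℓ) * b := by
  by_cases ha0 : (a : ℚ) = 0
  · exact ⟨0, Subtype.ext (by rw [ha0, mul_zero]; rfl)⟩
  have ha' := ha.resolve_right ha0
  have hℓ0 : (ℓ : ℚ) ≠ 0 := by exact_mod_cast hℓ.out.ne_zero
  have h1 : ℓ ∣ (a : ℚ).num.natAbs := by
    by_contra h1
    apply ha'
    have h2 : (a : ℚ)⁻¹ = ((a : ℚ).den : ℤ) * (((a : ℚ).num : ℚ))⁻¹ := by
      conv_lhs => rw [← Rat.num_div_den (a : ℚ)]
      rw [inv_div, div_eq_mul_inv]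
      push_cast
      rfl
    rw [h2]
    refine mul_mem (intCast_mem ℓ _) ?_
    rcases Int.natAbs_eq (a : ℚ).num with h3 | h3
    · rw [h3, Int.cast_natCast]
      exact inv_natCast_mem ℓ _ h1
    · rw [h3, Int.cast_neg, Int.cast_natCast, inv_neg]
      exact neg_mem (inv_natCast_mem ℓ _ h1)
  have h2 : (ℓ : ℤ) ∣ (a : ℚ).num := Int.natCast_dvd.mpr h1
  obtain ⟨m, hm⟩ := h2
  have h3 : (m : ℚ) * (((a : ℚ).den : ℚ))⁻¹ ∈ ratLocalizedAt ℓ :=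
    mul_mem (intCast_mem ℓ m) (inv_natCast_mem ℓ _ ((mem_ratLoc_iff' ℓ _).mp a.2))
  refine ⟨⟨_, h3⟩, Subtype.ext ?_⟩
  rw [MulMemClass.coe_mul]
  show (a : ℚ) = ((ℓ : ratLocalizedAt ℓ) : ℚ) * ((m : ℚ) * (((a : ℚ).den : ℚ))⁻¹)
  have h4 : ((ℓ : ratLocalizedAt ℓ) : ℚ) = (ℓ : ℚ) := rfl
  rw [h4]
  conv_lhs => rw [← Rat.num_div_den (a : ℚ), hm]
  push_cast
  rw [div_eq_mul_inv]
  ring

theorem cic (x c : ℚ) (hc : c ≠ 0) (h : ∀ n : ℕ, c * x ^ n ∈ ratLocalizedAt ℓ) :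
    x ∈ ratLocalizedAt ℓ := by
  by_contra hx
  have hx0 : x ≠ 0 := by
    rintro rfl
    exact hx (zero_mem _)
  have h1 := (mem_or ℓ x).resolve_left hx
  obtain ⟨b, hb⟩ := exists_eq_mul ℓ ⟨x⁻¹, h1⟩ (Or.inl (by rw [inv_inv]; exact hx))
  have hb' : x⁻¹ = (ℓ : ℚ) * b := congrArg Subtype.val hb
  have h2 : ∀ n : ℕ, ∃ a : ratLocalizedAt ℓ, c = (ℓ : ℚ) ^ n * a := by
    intro n
    refine ⟨⟨c * x ^ n, h n⟩ * b ^ n, ?_⟩
    push_cast
    have h3 : x ^ n * ((ℓ : ℚ) * b) ^ n = 1 := by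
      rw [← hb', ← mul_pow, mul_inv_cancel₀ hx0, one_pow]
    calc c = c * (x ^ n * ((ℓ : ℚ) * b) ^ n) := by rw [h3, mul_one]
      _ = _ := by rw [mul_pow]; ring
  have h3 : ∀ n : ℕ, ((ℓ : ℤ) ^ n) ∣ c.num := by
    intro n
    obtain ⟨a, ha⟩ := h2 n
    have h4 : (c.num : ℚ) * (a : ℚ).den = (ℓ : ℚ) ^ n * ((a : ℚ).num * c.den) := by
      have h5 : (a : ℚ) = (a : ℚ).num / (a : ℚ).den := (Rat.num_div_den _).symm
      have h6 : c = c.num / c.den := (Rat.num_div_den _).symm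
      have h7 : ((a : ℚ).den : ℚ) ≠ 0 := by exact_mod_cast (a : ℚ).den_nz
      have h8 : (c.den : ℚ) ≠ 0 := by exact_mod_cast c.den_nz
      have h9 : (c.num : ℚ) = c * c.den := by
        rw [eq_comm]
        exact Rat.mul_den_eq_num c
      have h10 : ((a : ℚ).num : ℚ) = (a : ℚ) * (a : ℚ).den := by
        rw [eq_comm]
        exact Rat.mul_den_eq_num _
      rw [h9, h10]
      linear_combination (((a : ℚ).den : ℚ) * (c.den : ℚ)) * ha
    have h5 : c.num * ((a : ℚ).den : ℤ) = (ℓ : ℤ) ^ n * ((a : ℚ).num * c.den) := by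
      exact_mod_cast h4
    have h6 : (ℓ : ℤ) ^ n ∣ c.num * ((a : ℚ).den : ℤ) := Dvd.intro _ h5.symm
    have h7 : IsCoprime ((ℓ : ℤ) ^ n) ((a : ℚ).den : ℤ) := by
      apply IsCoprime.pow_left
      rw [Nat.isCoprime_iff_coprime, Nat.coprime_comm]
      exact a.2
    exact h7.dvd_of_dvd_mul_right h6
  have h4 := h3 c.num.natAbs
  have h5 : c.num ≠ 0 := Rat.num_ne_zero.mpr hc
  have h6 := Int.natAbs_dvd_natAbs.mpr h4
  have h7 := Nat.le_of_dvd (Int.natAbs_pos.mpr h5) h6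
  rw [Int.natAbs_pow, Int.natAbs_natCast] at h7
  have h8 : c.num.natAbs < ℓ ^ c.num.natAbs := Nat.lt_pow_self hℓ.out.one_lt
  omega

variable (K : Type*) [Field K] [CharP K ℓ] [Algebra (ratLocalizedAt ℓ) K]

include ℓ in
theorem pi_inv_mem (a : ratLocalizedAt ℓ) (ha : algebraMap (ratLocalizedAt ℓ) K a ≠ 0) :
    (a : ℚ)⁻¹ ∈ ratLocalizedAt ℓ := by
  by_contra h
  obtain ⟨b, hb⟩ := exists_eq_mul ℓ a (Or.inl h)
  apply ha
  rw [hb, map_mul, map_natCast, CharP.cast_eq_zero, zero_mul]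

/-- the localization of `ℤ` at `ℓ` with a homomorphism to a field of characteristic `ℓ`. -/
def ratCtx : VCtx ℚ K where
  A := ratLocalizedAt ℓ
  mem_or := mem_or ℓ
  π := algebraMap (ratLocalizedAt ℓ) K
  inv_mem := pi_inv_mem ℓ K

/-- images of elements of the local ring lie in the prime field -/
theorem algebraMap_mem_prime (a : ratLocalizedAt ℓ) : ∃ n : ZMod ℓ,
    algebraMap (ratLocalizedAt ℓ) K a = (ZMod.castHom dvd_rfl K n : K) := by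
  have h1 : ¬ ℓ ∣ (a : ℚ).den := (mem_ratLoc_iff' ℓ _).mp a.2
  have h2 : ((a : ℚ).den : ratLocalizedAt ℓ) * a = ((a : ℚ).num : ratLocalizedAt ℓ) := by
    apply Subtype.ext
    push_cast
    rw [mul_comm]
    exact Rat.mul_den_eq_num _
  have h3 := congrArg (algebraMap (ratLocalizedAt ℓ) K) h2
  rw [map_mul, map_natCast, map_intCast] at h3
  have h4 : (((a : ℚ).den : ℕ) : K) ≠ 0 := by
    rw [Ne, CharP.cast_eq_zero_iff K ℓ]
    exact h1
  have h5 : (((a : ℚ).den : ℕ) : ZMod ℓ) ≠ 0 := by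
    rw [Ne, CharP.cast_eq_zero_iff (ZMod ℓ) ℓ]
    exact h1
  refine ⟨((a : ℚ).num : ZMod ℓ) / ((a : ℚ).den : ZMod ℓ), ?_⟩
  rw [map_div₀, map_intCast, map_natCast, eq_div_iff h4, mul_comm]
  exact h3

end Fermat.Agent.Igusa
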