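import Mathlib
import Fermat.Agent.Igusa.RatLoc
import Fermat.Prelude.Def_ModularCurve_IgusaScheme

set_option autoImplicit false
set_option linter.style.haveILetI false

noncomputable section

open Polynomial

namespace Fermat.Agent.ModPoly

open ModularCurve

namespace BCtx

variable {K k E F I : Type*} [Field K] [Field k] [Field E] [Field F] [Algebra K E]
    [Algebra K F] [Algebra E F] [IsScalarTower K E F] [Fintype I] (V : BCtx K k E F I)

theorem evAF_eq : V.evAF = V.evKF.comp (mapRingHom V.A.subtype) := rfl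

theorem isIntegralElem_evKF {g : F} (hg : V.evAF.IsIntegralElem g) : V.evKF.IsIntegralElem g := by
  obtain ⟨p, hp, h⟩ := hg
  refine ⟨p.map (mapRingHom V.A.subtype), hp.map _, ?_⟩
  rw [eval₂_map, ← V.evAF_eq]
  exact h

theorem evKF_C (a : K) : V.evKF (C a) = algebraMap K F a := by
  show algebraMap E F (aeval V.t (C a)) = _
  rw [aeval_C, ← IsScalarTower.algebraMap_apply]

/-- division by a generator of the maximal ideal -/
theorem exists_div {g : F} (hg : V.evAF.IsIntegralElem g) (gA : LaurentSeries V.A)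
    (hgA : V.inc gA = V.ι g) (h0 : V.red gA = 0) (a₀ : V.A) (ha₀ : (a₀ : K) ≠ 0)
    (hdiv : ∀ a, V.π a = 0 → ∃ b, a = a₀ * b) :
    ∃ y : F, V.evAF.IsIntegralElem y ∧ g = algebraMap K F a₀ * y := by
  refine ⟨algebraMap K F (a₀ : K)⁻¹ * g, ?_, ?_⟩
  · apply V.isIntegral_evAF
    · have h1 : V.ι (algebraMap K F (a₀ : K)⁻¹ * g) ∈ V.inc.range := by
        rw [mem_range_coeffMap_iff]
        intro n
        rw [map_mul, AlgHom.commutes, algebraMap_eq_C, HahnSeries.C_apply,
          HahnSeries.coeff_single_zero_mul, ← hgA]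
        obtain ⟨b, hb⟩ := hdiv (gA.coeff n) (by
          have := congrArg (fun x : LaurentSeries k => x.coeff n) h0
          exact this)
        have h2 : (V.inc gA).coeff n = (a₀ : K) * b := by
          rw [show (V.inc gA).coeff n = ((gA.coeff n : V.A) : K) from rfl, hb]
          rfl
        rw [h2, inv_mul_cancel_left₀ ha₀]
        exact b.2
      obtain ⟨u, hu⟩ := h1
      rw [← hu]
      exact V.inc_mem_W u
    · have h1 := V.isIntegralElem_evKF hg
      have h2 : V.evKF.IsIntegralElem (algebraMap K F (a₀ : K)⁻¹) := by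
        rw [← V.evKF_C]
        exact V.evKF.isIntegralElem_map
      exact RingHom.IsIntegralElem.mul _ h2 h1
  · rw [← mul_assoc, ← map_mul, mul_inv_cancel₀ ha₀, map_one, one_mul]

end BCtx

/-- evaluation of polynomials with coefficients in `A` at a Laurent series -/
def evLL {K : Type*} [Field K] (A : Subring K) (t : LaurentSeries K) : A[X] →+* LaurentSeries K :=
  eval₂RingHom ((HahnSeries.C : K →+* LaurentSeries K).comp A.subtype) t

section general

variable {K k : Type*} [Field K] [Field k] (V : VCtx K k) (N : ℕ) [NeZero N]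

variable (hNK : (N : K) ≠ 0) (hNk : (N : k) ≠ 0)

include hNK hNk in
theorem exists_BCtx (t : LaurentSeries K) (ht : t = jqModC K ∨ t = (jqModC K)⁻¹) :
    ∃ B : BCtx K k (EE K N) (FF K N) (Fin (dedekindPsi N)),
      ∃ _ : B.toVCtx = V, B.ι = (FF K N).val ∧ B.ιE B.t = t := by
  obtain ⟨z, hz, hLI⟩ := exists_monomials (k := k) (N := N) hNk
  have h0 : ((FF K N).val : FF K N →+* LaurentSeries K) (algebraMap (EE K N) (FF K N) (jE K N)) =
    jqModC K := Jc_one_one
  rcases ht with rfl | rfl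
  · exact ⟨modBCtx V N hNK z hz hLI, rfl, rfl, h0⟩
  · obtain ⟨w, hw⟩ := exists_jinv
    have h1 : jqModC V.A * cst V.A w = 1 := by
      rw [← cst_jqModC, cst, cst, ← map_mul, hw, map_one]
    refine ⟨(modBCtx V N hNK z hz hLI).invT (cst V.A w) h1, rfl, rfl, ?_⟩
    rw [← h0, ← map_inv₀, ← map_inv₀]
    rfl

omit [NeZero N] in
theorem ι_evAF (B : BCtx K k (EE K N) (FF K N) (Fin (dedekindPsi N))) :
    (B.ι : FF K N →+* LaurentSeries K).comp B.evAF = evLL B.A (B.ιE B.t) := by
  apply Polynomial.ringHom_ext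
  · intro a
    show B.ιE (B.evA (C a)) = _
    rw [B.evA_apply, B.ιE_aeval, map_C, evT_C]
    simp only [evLL, coe_eval₂RingHom, eval₂_C]
    rfl
  · show B.ιE (B.evA X) = _
    rw [B.evA_apply, map_X, aeval_X]
    simp only [evLL, coe_eval₂RingHom, eval₂_X]

omit [NeZero N] in
theorem isIntegralElem_iff (B : BCtx K k (EE K N) (FF K N) (Fin (dedekindPsi N))) (x : FF K N) :
    B.evAF.IsIntegralElem x ↔ (evLL B.A (B.ιE B.t)).IsIntegralElem (B.ι x) := by
  rw [← ι_evAF]
  constructor
  · rintro ⟨p, hp, h⟩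
    refine ⟨p, hp, ?_⟩
    have h2 := Polynomial.hom_eval₂ p B.evAF (B.ι : FF K N →+* LaurentSeries K) x
    rw [h, map_zero] at h2
    exact h2.symm
  · rintro ⟨p, hp, h⟩
    refine ⟨p, hp, ?_⟩
    have h2 : (B.ι : FF K N →+* LaurentSeries K) (eval₂ B.evAF x p) = 0 := by
      rw [Polynomial.hom_eval₂]
      exact h
    exact (B.ι : FF K N →+* LaurentSeries K).injective (by rw [h2, map_zero])

include hNK hNk in
/-- q-expansions of integral elements have integral coefficients -/
theorem chart_range (hcic : ∀ x c : K, c ≠ 0 → (∀ n : ℕ, c * x ^ n ∈ V.A) → x ∈ V.A)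
    (t : LaurentSeries K) (ht : t = jqModC K ∨ t = (jqModC K)⁻¹) (x : LaurentSeries K)
    (hxF : x ∈ FF K N) (hx : (evLL V.A t).IsIntegralElem x) : x ∈ (coeffMap V.A.subtype).range := by
  obtain ⟨B, rfl, hι, rfl⟩ := exists_BCtx V N hNK hNk t ht
  have h1 : B.ι ⟨x, hxF⟩ = x := by rw [hι]; rfl
  have h2 : B.evAF.IsIntegralElem ⟨x, hxF⟩ := by
    rw [isIntegralElem_iff, h1]
    exact hx
  have := B.mem_range_of_isIntegral hcic h2
  rw [h1] at this
  exact this

include hNK hNk in
/-- integral elements with zero reduction are divisible -/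
theorem chart_div (t : LaurentSeries K) (ht : t = jqModC K ∨ t = (jqModC K)⁻¹)
    (x : LaurentSeries K) (hxF : x ∈ FF K N)
    (hx : (evLL V.A t).IsIntegralElem x) (xA : LaurentSeries V.A)
    (hxA : coeffMap V.A.subtype xA = x) (h0 : coeffMap V.π xA = 0) (a₀ : V.A) (ha₀ : (a₀ : K) ≠ 0)
    (hdiv : ∀ a, V.π a = 0 → ∃ b, a = a₀ * b) :
    ∃ y : LaurentSeries K, y ∈ FF K N ∧ (evLL V.A t).IsIntegralElem y ∧
      x = HahnSeries.C (a₀ : K) * y := by
  obtain ⟨B, rfl, hι, rfl⟩ := exists_BCtx V N hNK hNk t ht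
  have h1 : ∀ y : FF K N, B.ι y = y := fun y => by rw [hι]; rfl
  have h2 : B.evAF.IsIntegralElem ⟨x, hxF⟩ := by
    rw [isIntegralElem_iff, h1]
    exact hx
  obtain ⟨y, hy, hy'⟩ := B.exists_div h2 xA (by rw [h1]; exact hxA) h0 a₀ ha₀ hdiv
  refine ⟨y, y.2, ?_, ?_⟩
  · rw [isIntegralElem_iff, h1] at hy
    exact hy
  · have h3 := congrArg Subtype.val hy'
    rw [← algebraMap_eq_C]
    exact h3

end general

end Fermat.Agent.ModPoly
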