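import Mathlib

set_option autoImplicit false
set_option linter.style.haveILetI false

noncomputable section

open scoped TensorProduct

namespace Fermat.Agent.Igusa

section

variable {R B K L J : Type*} [CommRing R] [CommRing B] [Algebra R B] [Field K] [Algebra R K]
  [CommRing L] [Algebra K L] [Algebra R L] [IsScalarTower R K L]
  (ℓ : ℕ) [Fact ℓ.Prime] [CharP K ℓ] (ρ : B →ₐ[R] L)

/-- the comparison homomorphism -/
def PhiT : B ⊗[R] K →ₐ[R] L :=
  Algebra.TensorProduct.lift ρ (IsScalarTower.toAlgHom R K L) (fun _ _ => Commute.all _ _)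

theorem PhiT_tmul (x : B) (c : K) : PhiT ρ (x ⊗ₜ[R] c) = ρ x * algebraMap K L c := by
  simp [PhiT]

omit [CharP K ℓ] in
theorem exists_finsupp [Algebra (ZMod ℓ) K] {I : Type*} (b : Module.Basis I (ZMod ℓ) K)
    (z : B ⊗[R] K) : ∃ f : I →₀ B, z = f.sum fun i x => x ⊗ₜ[R] (b i) := by
  classical
  induction z using TensorProduct.induction_on with
  | zero => exact ⟨0, by simp⟩
  | tmul x c =>
    refine ⟨Finsupp.mapRange (fun n : ZMod ℓ => (n.val • x)) (by simp) (b.repr c), ?_⟩
    rw [Finsupp.sum_mapRange_index (by simp)]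
    conv_lhs => rw [← b.linearCombination_repr c, Finsupp.linearCombination_apply]
    rw [Finsupp.sum, Finsupp.sum, TensorProduct.tmul_sum]
    refine Finset.sum_congr rfl fun i _ => ?_
    have h1 : (b.repr c i) • b i = (b.repr c i).val • b i := by
      conv_lhs => rw [← ZMod.natCast_zmod_val (b.repr c i)]
      rw [Nat.cast_smul_eq_nsmul]
    rw [h1, TensorProduct.tmul_smul, TensorProduct.smul_tmul']
  | add x y hx hy =>
    obtain ⟨f, hf⟩ := hx
    obtain ⟨g, hg⟩ := hy
    refine ⟨f + g, ?_⟩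
    rw [Finsupp.sum_add_index' (by simp) (by intro i a b; rw [TensorProduct.add_tmul]), ← hf, ← hg]

include ℓ in
theorem PhiT_injective (lam : J → L →ₗ[K] K) (hlam : ∀ x : L, (∀ n, lam n x = 0) → x = 0)
    (h1 : ∀ (x : B) (n : J), ∃ r : ZMod ℓ, lam n (ρ x) = ZMod.castHom dvd_rfl K r)
    (h2 : ∀ x : B, ρ x = 0 → ∃ y : B, x = (ℓ : B) * y) : Function.Injective (PhiT (K := K) ρ) := by
  classical
  letI := ZMod.algebra K ℓ
  rw [injective_iff_map_eq_zero]
  intro z hz
  set b := Module.Basis.ofVectorSpace (ZMod ℓ) K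
  obtain ⟨f, hf⟩ := exists_finsupp (R := R) ℓ b z
  have h3 : ∑ i ∈ f.support, ρ (f i) * algebraMap K L (b i) = 0 := by
    rw [hf, Finsupp.sum, map_sum] at hz
    simpa only [PhiT_tmul] using hz
  choose r hr using fun (p : B × J) => h1 p.1 p.2
  have h4 : ∀ n : J, ∑ i ∈ f.support, (r (f i, n)) • (b i) = 0 := by
    intro n
    have h5 := congrArg (lam n) h3
    rw [map_sum, map_zero] at h5
    rw [← h5]
    refine Finset.sum_congr rfl fun i _ => ?_
    rw [mul_comm, ← Algebra.smul_def, map_smul, hr (f i, n), smul_eq_mul, mul_comm,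
      Algebra.smul_def]
    rfl
  have h5 : ∀ i ∈ f.support, ρ (f i) = 0 := by
    intro i hi
    apply hlam
    intro n
    rw [hr (f i, n)]
    have h6 := (linearIndependent_iff'.mp b.linearIndependent) f.support _ (h4 n) i hi
    rw [h6, map_zero]
  rw [hf, Finsupp.sum]
  refine Finset.sum_eq_zero fun i hi => ?_
  obtain ⟨y, hy⟩ := h2 _ (h5 i hi)
  rw [hy, ← nsmul_eq_mul, TensorProduct.smul_tmul, nsmul_eq_mul, CharP.cast_eq_zero, zero_mul,
    TensorProduct.tmul_zero]

end

end Fermat.Agent.Igusa
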