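import Mathlib
import Fermat.Agent.Igusa.Chart
import Fermat.Agent.Igusa.Tensor

set_option autoImplicit false
set_option linter.style.haveILetI false

noncomputable section

open Polynomial ModularCurve ModularCurve.IgusaScheme
open scoped TensorProduct

namespace Fermat.Agent.Igusa

open ModPoly GaloisRep

section

variable (N : ℕ) [NeZero N] (ℓ : ℕ) [hℓ : Fact ℓ.Prime]

theorem mem_chartAlg_iff' (t x : modularFunctionFieldFull N) : x ∈ chartAlg N ℓ {t} ↔
    (evLL (ratLocalizedAt ℓ) (t : LaurentSeries ℚ)).IsIntegralElem (x : LaurentSeries ℚ) := by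
  set T := Algebra.adjoin (ratLocalizedAt ℓ) ({t} : Set (modularFunctionFieldFull N)) with hT
  have ht : t ∈ T := Algebra.subset_adjoin rfl
  let ψ : (ratLocalizedAt ℓ)[X] →ₐ[ratLocalizedAt ℓ] T := aeval (⟨t, ht⟩ : T)
  have hψ : ∀ P, ((ψ P : T) : modularFunctionFieldFull N) = aeval t P := by
    intro P
    have : T.val.comp ψ = aeval t := by
      ext
      simp [ψ]
    exact congrArg (fun f : (ratLocalizedAt ℓ)[X] →ₐ[ratLocalizedAt ℓ] _ => f P) this
  have hsurj : Function.Surjective ψ := by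
    intro y
    have hy : (y : modularFunctionFieldFull N) ∈
        Algebra.adjoin (ratLocalizedAt ℓ) ({t} : Set (modularFunctionFieldFull N)) := y.2
    rw [Algebra.adjoin_singleton_eq_range_aeval] at hy
    obtain ⟨P, hP⟩ := hy
    exact ⟨P, Subtype.ext ((hψ P).trans hP)⟩
  let v : modularFunctionFieldFull N →+* LaurentSeries ℚ :=
    ((modularFunctionFieldFull N).val : modularFunctionFieldFull N →+* LaurentSeries ℚ)
  have hv : Function.Injective v := v.injective
  have hcomp : evLL (ratLocalizedAt ℓ) (t : LaurentSeries ℚ) =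
      v.comp ((algebraMap T (modularFunctionFieldFull N)).comp
      (ψ : (ratLocalizedAt ℓ)[X] →+* T)) := by
    apply Polynomial.ringHom_ext
    · intro a
      have h1 : evLL (ratLocalizedAt ℓ) (t : LaurentSeries ℚ) (C a) = HahnSeries.C (a : ℚ) := by
        simp only [evLL, coe_eval₂RingHom, eval₂_C]
        rfl
      rw [h1]
      show _ = v ((ψ (C a) : T) : modularFunctionFieldFull N)
      rw [hψ, aeval_C]
      exact RingHom.congr_fun (RingHom.ext_rat (HahnSeries.C : ℚ →+* LaurentSeries ℚ)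
        (v.comp (algebraMap ℚ (modularFunctionFieldFull N)))) (a : ℚ)
    · have h1 : evLL (ratLocalizedAt ℓ) (t : LaurentSeries ℚ) X = t := by
        simp only [evLL, coe_eval₂RingHom, eval₂_X]
      rw [h1]
      show _ = v ((ψ X : T) : modularFunctionFieldFull N)
      rw [hψ, aeval_X]
      rfl
  rw [mem_chartAlg_iff, hcomp]
  constructor
  · rintro ⟨p, hp, hpx⟩
    have hlift : p ∈ Polynomial.lifts (ψ : (ratLocalizedAt ℓ)[X] →+* T) := by
      rw [Polynomial.lifts_iff_coeff_lifts]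
      intro n
      exact hsurj _
    obtain ⟨q, hq, -, hqm⟩ := Polynomial.lifts_and_natDegree_eq_and_monic hlift hp
    refine ⟨q, hqm, ?_⟩
    have h1 := Polynomial.hom_eval₂ q ((algebraMap T (modularFunctionFieldFull N)).comp
      (ψ : (ratLocalizedAt ℓ)[X] →+* T)) v x
    have h2 : eval₂ ((algebraMap T (modularFunctionFieldFull N)).comp
      (ψ : (ratLocalizedAt ℓ)[X] →+* T)) x q = 0 := by
      rw [← eval₂_map, hq]
      exact hpx
    rw [h2, map_zero] at h1
    exact h1.symm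
  · rintro ⟨p, hp, hpx⟩
    refine ⟨p.map (ψ : (ratLocalizedAt ℓ)[X] →+* T), hp.map _, ?_⟩
    rw [eval₂_map]
    apply hv
    rw [map_zero]
    have h1 := Polynomial.hom_eval₂ p ((algebraMap T (modularFunctionFieldFull N)).comp
      (ψ : (ratLocalizedAt ℓ)[X] →+* T)) v x
    exact h1.trans hpx

end

section

variable {N : ℕ} [NeZero N] {ℓ : ℕ} [hℓ : Fact ℓ.Prime] (K : Type) [Field K] [CharP K ℓ]
  [Algebra (ratLocalizedAt ℓ) K]

omit [NeZero N] hℓ [Algebra (ratLocalizedAt ℓ) K] in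
theorem N_ne_zero_K (hℓN : ¬ ℓ ∣ N) : (N : K) ≠ 0 := by
  rw [Ne, CharP.cast_eq_zero_iff K ℓ]
  exact hℓN

theorem N_ne_zero_Q : (N : ℚ) ≠ 0 := by exact_mod_cast NeZero.ne N

include K in
theorem rat_range (hℓN : ¬ ℓ ∣ N) (t : LaurentSeries ℚ) (ht : t = jqModC ℚ ∨ t = (jqModC ℚ)⁻¹)
    (x : LaurentSeries ℚ) (hxF : x ∈ FF ℚ N) (hx : (evLL (ratLocalizedAt ℓ) t).IsIntegralElem x) :
    x ∈ (coeffMap (ratLocalizedAt ℓ).subtype).range :=
  chart_range (ratCtx ℓ K) N N_ne_zero_Q (N_ne_zero_K K hℓN) (cic ℓ) t ht x hxF hx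

theorem rat_div (hℓN : ¬ ℓ ∣ N) (t : LaurentSeries ℚ) (ht : t = jqModC ℚ ∨ t = (jqModC ℚ)⁻¹)
    (x : LaurentSeries ℚ) (hxF : x ∈ FF ℚ N) (hx : (evLL (ratLocalizedAt ℓ) t).IsIntegralElem x)
    (xA : LaurentSeries (ratLocalizedAt ℓ)) (hxA : coeffMap (ratLocalizedAt ℓ).subtype xA = x)
    (h0 : coeffMap (algebraMap (ratLocalizedAt ℓ) K) xA = 0) :
    ∃ y : LaurentSeries ℚ, y ∈ FF ℚ N ∧ (evLL (ratLocalizedAt ℓ) t).IsIntegralElem y ∧
      x = HahnSeries.C (ℓ : ℚ) * y := by
  have h1 : ∀ a : ratLocalizedAt ℓ, algebraMap (ratLocalizedAt ℓ) K a = 0 →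
      ∃ b : ratLocalizedAt ℓ, a = (ℓ : ratLocalizedAt ℓ) * b := by
    intro a ha
    apply exists_eq_mul
    by_contra hcon
    push Not at hcon
    obtain ⟨h2, h3⟩ := hcon
    have h4 : a * ⟨(a : ℚ)⁻¹, h2⟩ = 1 := Subtype.ext (mul_inv_cancel₀ h3)
    have h5 := congrArg (algebraMap (ratLocalizedAt ℓ) K) h4
    rw [map_mul, ha, zero_mul, map_one] at h5
    exact zero_ne_one h5
  exact chart_div (ratCtx ℓ K) N N_ne_zero_Q (N_ne_zero_K K hℓN) t ht x hxF hx xA hxA h0
    (ℓ : ratLocalizedAt ℓ) (by exact_mod_cast hℓ.out.ne_zero) h1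

variable (t : modularFunctionFieldFull N)

include K in
theorem chart_mem_range (hℓN : ¬ ℓ ∣ N)
    (ht : (t : LaurentSeries ℚ) = jqModC ℚ ∨ (t : LaurentSeries ℚ) = (jqModC ℚ)⁻¹)
    (x : chartAlg N ℓ {t}) :
    ((x : modularFunctionFieldFull N) : LaurentSeries ℚ) ∈
      (coeffMap (ratLocalizedAt ℓ).subtype).range :=
  rat_range K hℓN _ ht _ (x : modularFunctionFieldFull N).2 ((mem_chartAlg_iff' N ℓ t x).mp x.2)

/-- the q-expansion homomorphism on a chart -/
def phiB (hℓN : ¬ ℓ ∣ N)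
    (ht : (t : LaurentSeries ℚ) = jqModC ℚ ∨ (t : LaurentSeries ℚ) = (jqModC ℚ)⁻¹) :
    chartAlg N ℓ {t} →+* LaurentSeries (ratLocalizedAt ℓ) :=
  (RingEquiv.ofBijective (coeffMap (ratLocalizedAt ℓ).subtype).rangeRestrict
    ⟨fun _ _ h => coeffMap_injective (f := (ratLocalizedAt ℓ).subtype) Subtype.val_injective
      (congrArg Subtype.val h), RingHom.rangeRestrict_surjective _⟩).symm.toRingHom.comp
    (((algebraMap (modularFunctionFieldFull N) (LaurentSeries ℚ)).comp
      (algebraMap (chartAlg N ℓ {t}) (modularFunctionFieldFull N))).codRestrict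
      (coeffMap (ratLocalizedAt ℓ).subtype).range (chart_mem_range K t hℓN ht))

theorem phiB_spec (hℓN : ¬ ℓ ∣ N)
    (ht : (t : LaurentSeries ℚ) = jqModC ℚ ∨ (t : LaurentSeries ℚ) = (jqModC ℚ)⁻¹)
    (x : chartAlg N ℓ {t}) : coeffMap (ratLocalizedAt ℓ).subtype (phiB K t hℓN ht x) =
      ((x : modularFunctionFieldFull N) : LaurentSeries ℚ) := by
  set e := RingEquiv.ofBijective (coeffMap (ratLocalizedAt ℓ).subtype).rangeRestrict
    ⟨fun _ _ h => coeffMap_injective (f := (ratLocalizedAt ℓ).subtype) Subtype.val_injective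
      (congrArg Subtype.val h), RingHom.rangeRestrict_surjective _⟩
  have h1 : e (phiB K t hℓN ht x) = ⟨_, chart_mem_range K t hℓN ht x⟩ := by
    rw [phiB]
    exact e.apply_symm_apply _
  exact congrArg Subtype.val h1

/-- a type synonym for Laurent series, to avoid instance diamonds -/
def LK (K : Type) [Field K] : Type := LaurentSeries K

instance (K : Type) [Field K] : Field (LK K) := inferInstanceAs (Field (LaurentSeries K))

instance (K : Type) [Field K] : Algebra K (LK K) := (algebraMap K (LaurentSeries K)).toAlgebra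

theorem algebraMap_LK (K : Type) [Field K] (c : K) :
    algebraMap K (LK K) c = (HahnSeries.C c : LaurentSeries K) := by
  show algebraMap K (LaurentSeries K) c = _
  rw [algebraMap_eq_C]

theorem coeff_C_mul' {K : Type} [Field K] (c : K) (x : LaurentSeries K) (n : ℤ) :
    ((HahnSeries.C c : LaurentSeries K) * x).coeff n = c * x.coeff n := by
  rw [HahnSeries.C_apply, HahnSeries.coeff_single_zero_mul]

/-- coefficient functionals -/
def coeffLin (K : Type) [Field K] (n : ℤ) : LK K →ₗ[K] K where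
  toFun x := HahnSeries.coeff (Γ := ℤ) (R := K) x n
  map_add' _ _ := rfl
  map_smul' c x := by
    rw [Algebra.smul_def, algebraMap_LK]
    exact coeff_C_mul' c x n

/-- The fibre of a chart of the Igusa scheme is a domain -/
theorem isDomain_tensor (hℓN : ¬ ℓ ∣ N)
    (ht : (t : LaurentSeries ℚ) = jqModC ℚ ∨ (t : LaurentSeries ℚ) = (jqModC ℚ)⁻¹) :
    IsDomain (chartAlg N ℓ {t} ⊗[ratLocalizedAt ℓ] K) := by
  letI : Algebra (ratLocalizedAt ℓ) (LK K) :=
    ((algebraMap K (LK K)).comp (algebraMap (ratLocalizedAt ℓ) K)).toAlgebra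
  haveI : IsScalarTower (ratLocalizedAt ℓ) K (LK K) :=
    IsScalarTower.of_algebraMap_eq fun _ => rfl
  let ρ₀ : chartAlg N ℓ {t} →+* LK K :=
    (coeffMap (algebraMap (ratLocalizedAt ℓ) K)).comp (phiB K t hℓN ht)
  let ρ : chartAlg N ℓ {t} →ₐ[ratLocalizedAt ℓ] LK K :=
    { ρ₀ with
      commutes' := by
        intro r
        show coeffMap (algebraMap (ratLocalizedAt ℓ) K) (phiB K t hℓN ht _) =
          algebraMap K (LaurentSeries K) (algebraMap (ratLocalizedAt ℓ) K r)
        have h1 : phiB K t hℓN ht (algebraMap (ratLocalizedAt ℓ) (chartAlg N ℓ {t}) r) =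
            HahnSeries.C r := by
          apply coeffMap_injective (f := (ratLocalizedAt ℓ).subtype) Subtype.val_injective
          rw [phiB_spec, coeffMap_C]
          exact RingHom.congr_fun (RingHom.ext_rat
            ((algebraMap (modularFunctionFieldFull N) (LaurentSeries ℚ)).comp
              (algebraMap ℚ (modularFunctionFieldFull N)))
            (HahnSeries.C : ℚ →+* LaurentSeries ℚ)) (r : ℚ)
        rw [h1, coeffMap_C, algebraMap_eq_C] }
  have hinj : Function.Injective (PhiT (K := K) ρ) := by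
    refine PhiT_injective ℓ ρ (coeffLin K) ?_ ?_ ?_
    · intro x hx
      apply HahnSeries.ext
      funext n
      exact hx n
    · intro x n
      exact algebraMap_mem_prime ℓ K _
    · intro x hx
      obtain ⟨y, hyF, hy, hxy⟩ := rat_div K hℓN (t : LaurentSeries ℚ) ht
        ((x : modularFunctionFieldFull N) : LaurentSeries ℚ) (x : modularFunctionFieldFull N).2
        ((mem_chartAlg_iff' N ℓ t x).mp x.2) (phiB K t hℓN ht x) (phiB_spec K t hℓN ht x) hx
      refine ⟨⟨⟨y, hyF⟩, (mem_chartAlg_iff' N ℓ t ⟨y, hyF⟩).mpr hy⟩, ?_⟩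
      apply Subtype.ext
      apply Subtype.ext
      rw [hxy]
      push_cast
      congr 1
  exact hinj.isDomain (PhiT (K := K) ρ).toRingHom

end

end Fermat.Agent.Igusa
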