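import Mathlib

set_option autoImplicit false
set_option linter.style.haveILetI false

noncomputable section

open AlgebraicGeometry CategoryTheory CategoryTheory.Limits

namespace Fermat.Agent.Igusa

theorem irreducibleSpace_of_two {P : Type*} [TopologicalSpace P] {U V : Set P} (hU : IsOpen U)
    (hV : IsOpen V) (hUV : U ∪ V = Set.univ) (h1 : IsPreirreducible U) (h2 : IsPreirreducible V)
    (h3 : (U ∩ V).Nonempty) : IrreducibleSpace P := by
  haveI : Nonempty P := h3.nonempty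
  have h4 : IsPreirreducible (Set.univ : Set P) := by
    -- every nonempty open set meets `U ∩ V`
    have key : ∀ O : Set P, IsOpen O → O.Nonempty → (O ∩ (U ∩ V)).Nonempty := by
      intro O hO hOne
      obtain ⟨x, hx⟩ := hOne
      have hx' : x ∈ U ∪ V := by rw [hUV]; trivial
      rcases hx' with hxU | hxV
      · obtain ⟨y, hyU, hyO, hyV⟩ := h1 O V hO hV ⟨x, hxU, hx⟩ h3
        exact ⟨y, hyO, hyU, hyV⟩
      · obtain ⟨y, hyV, hyO, hyU⟩ := h2 O U hO hU ⟨x, hxV, hx⟩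
          (by rw [Set.inter_comm]; exact h3)
        exact ⟨y, hyO, hyU, hyV⟩
    intro O₁ O₂ hO₁ hO₂ hne₁ hne₂
    obtain ⟨y₁, hy₁, hy₁U, -⟩ := key O₁ hO₁ (by simpa using hne₁)
    obtain ⟨y₂, hy₂, hy₂U, -⟩ := key O₂ hO₂ (by simpa using hne₂)
    obtain ⟨y, -, hy⟩ := h1 O₁ O₂ hO₁ hO₂ ⟨y₁, hy₁U, hy₁⟩ ⟨y₂, hy₂U, hy₂⟩
    exact ⟨y, trivial, hy⟩
  exact { isPreirreducible_univ := h4, toNonempty := this }

theorem isIntegral_pullback_of_two {X S T : Scheme.{0}} (f : X ⟶ S) (g : T ⟶ S) {U₁ U₂ M : Scheme.{0}}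
    (i₁ : U₁ ⟶ X) (i₂ : U₂ ⟶ X) [IsOpenImmersion i₁] [IsOpenImmersion i₂]
    (cov : ∀ x : X, x ∈ Set.range i₁.base ∨ x ∈ Set.range i₂.base)
    (int₁ : IsIntegral (pullback (i₁ ≫ f) g)) (int₂ : IsIntegral (pullback (i₂ ≫ f) g))
    (a₁ : M ⟶ U₁) (a₂ : M ⟶ U₂) (h : a₁ ≫ i₁ = a₂ ≫ i₂)
    (W : Scheme.{0}) (hne : Nonempty W) (w₁ : W ⟶ M) (w₂ : W ⟶ T)
    (hw : w₁ ≫ a₁ ≫ i₁ ≫ f = w₂ ≫ g) : IsIntegral (pullback f g) := by
  let 𝒰 : X.OpenCover := Scheme.Cover.mkOfCovers Bool (fun b => if b then U₁ else U₂)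
    (fun b => match b with
      | true => i₁
      | false => i₂) (by
      intro x
      rcases cov x with ⟨y, hy⟩ | ⟨y, hy⟩
      · exact ⟨true, y, hy⟩
      · exact ⟨false, y, hy⟩) (by
      intro b
      rcases b with _ | _
      · exact ‹IsOpenImmersion i₂›
      · exact ‹IsOpenImmersion i₁›)
  let 𝒱 := Scheme.Pullback.openCoverOfLeft 𝒰 f g
  have hint : ∀ b, IsIntegral (𝒱.X b) := by
    intro b
    rcases b with _ | _
    · exact int₂
    · exact int₁
  haveI : ∀ b, IsReduced (𝒱.X b) := fun b => by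
    haveI := hint b
    infer_instance
  haveI : IsReduced (pullback f g) := IsReduced.of_openCover _ 𝒱
  let e₁ : pullback (i₁ ≫ f) g ⟶ pullback f g :=
    pullback.map (i₁ ≫ f) g f g i₁ (𝟙 _) (𝟙 _) (by simp) (by simp)
  let e₂ : pullback (i₂ ≫ f) g ⟶ pullback f g :=
    pullback.map (i₂ ≫ f) g f g i₂ (𝟙 _) (𝟙 _) (by simp) (by simp)
  have he₁ : e₁ = 𝒱.f true := rfl
  have he₂ : e₂ = 𝒱.f false := rfl
  haveI : IsOpenImmersion e₁ := 𝒱.map_prop true
  haveI : IsOpenImmersion e₂ := 𝒱.map_prop false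
  haveI : IrreducibleSpace ↑(pullback f g) := by
    refine irreducibleSpace_of_two (U := Set.range e₁) (V := Set.range e₂)
      e₁.isOpenEmbedding.isOpen_range e₂.isOpenEmbedding.isOpen_range ?_ ?_ ?_ ?_
    · rw [Set.eq_univ_iff_forall]
      intro x
      obtain ⟨b, y, hy⟩ := 𝒱.exists_eq x
      rcases b with _ | _
      · right
        exact ⟨y, hy⟩
      · left
        exact ⟨y, hy⟩
    · haveI := int₁
      rw [← Set.image_univ]
      exact (PreirreducibleSpace.isPreirreducible_univ).image _ e₁.continuous.continuousOn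
    · haveI := int₂
      rw [← Set.image_univ]
      exact (PreirreducibleSpace.isPreirreducible_univ).image _ e₂.continuous.continuousOn
    · obtain ⟨z⟩ := hne
      have hw' : w₁ ≫ a₂ ≫ i₂ ≫ f = w₂ ≫ g := by
        rw [← hw, ← Category.assoc a₂ i₂ f, ← h, Category.assoc]
      let m₁ : W ⟶ pullback (i₁ ≫ f) g := pullback.lift (w₁ ≫ a₁) w₂ (by
        rw [Category.assoc]; exact hw)
      let m₂ : W ⟶ pullback (i₂ ≫ f) g := pullback.lift (w₁ ≫ a₂) w₂ (by
        rw [Category.assoc]; exact hw')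
      have f₁ : e₁ ≫ pullback.fst f g = pullback.fst _ _ ≫ i₁ := pullback.lift_fst _ _ _
      have f₂ : e₂ ≫ pullback.fst f g = pullback.fst _ _ ≫ i₂ := pullback.lift_fst _ _ _
      have g₁ : e₁ ≫ pullback.snd f g = pullback.snd _ _ ≫ 𝟙 _ := pullback.lift_snd _ _ _
      have g₂ : e₂ ≫ pullback.snd f g = pullback.snd _ _ ≫ 𝟙 _ := pullback.lift_snd _ _ _
      have k₁ : m₁ ≫ pullback.fst _ _ = w₁ ≫ a₁ := pullback.lift_fst _ _ _
      have k₂ : m₂ ≫ pullback.fst _ _ = w₁ ≫ a₂ := pullback.lift_fst _ _ _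
      have l₁ : m₁ ≫ pullback.snd _ _ = w₂ := pullback.lift_snd _ _ _
      have l₂ : m₂ ≫ pullback.snd _ _ = w₂ := pullback.lift_snd _ _ _
      have hm : m₁ ≫ e₁ = m₂ ≫ e₂ := by
        apply pullback.hom_ext
        · rw [Category.assoc, Category.assoc, f₁, f₂, ← Category.assoc, ← Category.assoc, k₁, k₂,
            Category.assoc, Category.assoc, h]
        · rw [Category.assoc, Category.assoc, g₁, g₂, Category.comp_id, Category.comp_id, l₁, l₂]
      refine ⟨e₁ (m₁ z), ⟨m₁ z, rfl⟩, ⟨m₂ z, ?_⟩⟩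
      rw [← Scheme.Hom.comp_apply, ← Scheme.Hom.comp_apply, hm]
  exact isIntegral_of_irreducibleSpace_of_isReduced _

end Fermat.Agent.Igusa
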