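import Mathlib
import Fermat.Agent.Igusa.Domain
import Fermat.Agent.Igusa.Geom

set_option autoImplicit false
set_option linter.style.haveILetI false

noncomputable section

open AlgebraicGeometry CategoryTheory CategoryTheory.Limits ModularCurve ModularCurve.IgusaScheme
open scoped TensorProduct

namespace Fermat.Agent.Igusa

open ModPoly GaloisRep

variable {N : ℕ} [NeZero N] {ℓ : ℕ} [hℓ : Fact ℓ.Prime] (K : Type) [Field K] [CharP K ℓ]
  [Algebra (ratLocalizedAt ℓ) K] (hℓN : ¬ ℓ ∣ N)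

theorem jFull_coe : ((jFull N : modularFunctionFieldFull N) : LaurentSeries ℚ) = jqModC ℚ := rfl

theorem jFull_inv_coe : (((jFull N)⁻¹ : modularFunctionFieldFull N) : LaurentSeries ℚ) =
    (jqModC ℚ)⁻¹ := rfl

/-- reduction homomorphism on the finite chart -/
def rhoFin : chartAlgFin N ℓ →+* LK K :=
  (coeffMap (algebraMap (ratLocalizedAt ℓ) K)).comp (phiB K (jFull N) hℓN (Or.inl jFull_coe))

theorem rhoFin_algebraMap (r : ratLocalizedAt ℓ) :
    rhoFin K hℓN (algebraMap (ratLocalizedAt ℓ) (chartAlgFin N ℓ) r) =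
      algebraMap K (LK K) (algebraMap (ratLocalizedAt ℓ) K r) := by
  show coeffMap (algebraMap (ratLocalizedAt ℓ) K) (phiB K _ hℓN _ _) =
    algebraMap K (LaurentSeries K) (algebraMap (ratLocalizedAt ℓ) K r)
  have h1 : phiB K (jFull N) hℓN (Or.inl jFull_coe)
      (algebraMap (ratLocalizedAt ℓ) (chartAlgFin N ℓ) r) = HahnSeries.C r := by
    apply coeffMap_injective (f := (ratLocalizedAt ℓ).subtype) Subtype.val_injective
    rw [phiB_spec, coeffMap_C]
    exact RingHom.congr_fun (RingHom.ext_rat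
      ((algebraMap (modularFunctionFieldFull N) (LaurentSeries ℚ)).comp
        (algebraMap ℚ (modularFunctionFieldFull N)))
      (HahnSeries.C : ℚ →+* LaurentSeries ℚ)) (r : ℚ)
  rw [h1, coeffMap_C, algebraMap_eq_C]

theorem rhoFin_j : rhoFin K hℓN (jChartFin N ℓ) ≠ 0 := by
  have h1 : phiB K (jFull N) hℓN (Or.inl jFull_coe) (jChartFin N ℓ) =
      jqModC (ratLocalizedAt ℓ) := by
    apply coeffMap_injective (f := (ratLocalizedAt ℓ).subtype) Subtype.val_injective
    rw [phiB_spec, coeffMap_jqModC]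
    rfl
  show coeffMap (algebraMap (ratLocalizedAt ℓ) K) (phiB K _ hℓN _ (jChartFin N ℓ)) ≠
    (0 : LaurentSeries K)
  rw [h1, coeffMap_jqModC]
  exact jqModC_ne_zero_of_nontrivial K

/-- reduction homomorphism on the middle chart -/
theorem exists_rhoMid : ∃ g : chartAlgMid N ℓ →+* LK K,
    g.comp (inclFin N ℓ).toRingHom = rhoFin K hℓN := by
  letI := (inclFin N ℓ).toRingHom.toAlgebra
  haveI := isLocalization_away_inclFin N ℓ
  exact ⟨IsLocalization.Away.lift (jChartFin N ℓ) (g := rhoFin K hℓN)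
    (isUnit_iff_ne_zero.mpr (rhoFin_j K hℓN)), IsLocalization.Away.lift_comp _ _⟩

include hℓN in
theorem isIntegral_fiber (t : modularFunctionFieldFull N)
    (ht : (t : LaurentSeries ℚ) = jqModC ℚ ∨ (t : LaurentSeries ℚ) = (jqModC ℚ)⁻¹) :
    AlgebraicGeometry.IsIntegral (pullback
      (Spec.map (CommRingCat.ofHom (algebraMap (ratLocalizedAt ℓ) (chartAlg N ℓ {t}))))
      (Spec.map (CommRingCat.ofHom (algebraMap (ratLocalizedAt ℓ) K)))) := by
  haveI : IsDomain (chartAlg N ℓ {t} ⊗[ratLocalizedAt ℓ] K) := isDomain_tensor K t hℓN ht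
  haveI : IsDomain (CommRingCat.of (chartAlg N ℓ {t} ⊗[ratLocalizedAt ℓ] K)) := this
  exact IsIntegral.of_isIso (pullbackSpecIso (ratLocalizedAt ℓ) (chartAlg N ℓ {t}) K).inv

include hℓN in
theorem main : AlgebraicGeometry.IsIntegral ↑(pullback (igusaTo N ℓ)
      (Spec.map (CommRingCat.ofHom (algebraMap (ratLocalizedAt ℓ) K)))) := by
  obtain ⟨g, hg⟩ := exists_rhoMid K hℓN
  refine isIntegral_pullback_of_two (igusaTo N ℓ)
    (Spec.map (CommRingCat.ofHom (algebraMap (ratLocalizedAt ℓ) K))) (ιFin N ℓ) (ιInf N ℓ)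
    (mem_range_ιFin_or_mem_range_ιInf N ℓ) ?_ ?_ (fFin N ℓ) (fInf N ℓ) (glue_condition N ℓ)
    (Spec (CommRingCat.of (LK K))) ?_ (Spec.map (CommRingCat.ofHom g))
    (Spec.map (CommRingCat.ofHom (algebraMap K (LK K)))) ?_
  · rw [ιFin_igusaTo]
    exact isIntegral_fiber K hℓN (jFull N) (Or.inl jFull_coe)
  · rw [ιInf_igusaTo]
    exact isIntegral_fiber K hℓN (jFull N)⁻¹ (Or.inr jFull_inv_coe)
  · infer_instance
  · rw [ιFin_igusaTo, ← Spec.map_comp, ← Spec.map_comp, ← Spec.map_comp, ← CommRingCat.ofHom_comp,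
      ← CommRingCat.ofHom_comp, ← CommRingCat.ofHom_comp]
    congr 2
    rw [← RingHom.comp_assoc, hg]
    exact RingHom.ext fun r => rhoFin_algebraMap K hℓN r

end Fermat.Agent.Igusa
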